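import Fermat.Agent.FerreroWashington.Reflection

/-!
# The minus part is bounded by the relative class number

In a CM field the classes of order `p` inverted by conjugation are at most
`p ^ (v_p h - v_p h⁺)` in number, `p` odd (`card_negPart_le`); with the reflection inequality
`|Cl(K)[p]| ≤ p ^ (1 + 2 (v_p h - v_p h⁺))` (`card_torsion_le_relClassNumber`).
-/

set_option autoImplicit false
set_option linter.unusedSectionVars false
set_option linter.style.haveILetI false

noncomputable section

open NumberField NumberField.IsCMField FA.AmbClass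
open FA.ClassField94

namespace FA.FerreroWashington

variable {p : ℕ} [hp : Fact p.Prime] (K : Type) [Field K] [NumberField K] [IsCMField K]

/-- Classes from the real subfield are fixed by conjugation. -/
theorem conjClass_extended (y : ClassGroup (𝓞 (maximalRealSubfield K))) :
    conjClass K (ClassGroup.extendedHom (𝓞 (maximalRealSubfield K)) (𝓞 K) y) =
      ClassGroup.extendedHom (𝓞 (maximalRealSubfield K)) (𝓞 K) y := by
  obtain ⟨I, rfl⟩ := ClassGroup.mk0_surjective y
  have h : ∀ J : Ideal (𝓞 (maximalRealSubfield K)),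
      (J.map (algebraMap (𝓞 (maximalRealSubfield K)) (𝓞 K))).map
        (RingOfIntegers.mapRingEquiv (complexConj K).toRingEquiv : 𝓞 K →+* 𝓞 K) =
        J.map (algebraMap (𝓞 (maximalRealSubfield K)) (𝓞 K)) := fun J => by
    rw [Ideal.map_map]
    exact congrArg (fun f => J.map f) (RingHom.ext fun a =>
      RingOfIntegers.ext ((complexConj K).commutes (a : maximalRealSubfield K)))
  rw [ClassGroup.extendedHom_mk0, conjClass_mk0]
  exact congrArg ClassGroup.mk0 (Subtype.ext (h I))

/-- **The minus part.** -/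
theorem card_negPart_le (hp2 : p ≠ 2) :
    ∃ a : ℕ, Nat.card (negPart p (galCl (conjQ K))) = p ^ a ∧
      a + padicValNat p (classNumber (maximalRealSubfield K)) ≤ padicValNat p (classNumber K) := by
  set S := negPart p (galCl (conjQ K))
  set N : ClassGroup (𝓞 K) →* ClassGroup (𝓞 K) := MonoidHom.id _ * galCl (conjQ K)
  set ext := ClassGroup.extendedHom (𝓞 (maximalRealSubfield K)) (𝓞 K)
  set φ : ClassGroup (𝓞 (maximalRealSubfield K)) →* ClassGroup (𝓞 K) :=
    (powMonoidHom 2).comp ext
  have hφN : φ.range ≤ N.range := by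
    rintro _ ⟨y, rfl⟩
    refine ⟨ext y, ?_⟩
    show ext y * galCl (conjQ K) (ext y) = ext y ^ 2
    rw [galCl_conjQ, conjClass_extended, pow_two]
  have hφ : ¬ p ∣ Nat.card φ.ker := fun hd => by
    obtain ⟨x, hx⟩ := exists_prime_orderOf_dvd_card' p hd
    have h1 : ext (x.1 ^ 2) = 1 := (map_pow ext x.1 2).trans x.2
    have h2 := pow_finrank_eq_one h1
    rw [Algebra.IsQuadraticExtension.finrank_eq_two (maximalRealSubfield K) K, ← pow_mul] at h2
    have h3 : p ∣ 2 * 2 := hx ▸ orderOf_dvd_of_pow_eq_one (Subtype.ext h2)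
    exact hp2 ((Nat.prime_dvd_prime_iff_eq hp.out Nat.prime_two).1
      ((hp.out.dvd_mul.1 h3).elim id id))
  have hS : IsPGroup p S := fun x => ⟨1, Subtype.ext (by
    rw [pow_one]; exact ((mem_negPart _).1 x.2).1)⟩
  obtain ⟨a, ha⟩ := IsPGroup.iff_card.1 hS
  refine ⟨a, ha, ?_⟩
  have hdS : p ^ a ∣ Nat.card N.ker := ha ▸ Subgroup.card_dvd_of_le inf_le_right
  have h1 := Subgroup.card_mul_index N.ker
  rw [Subgroup.index_ker] at h1
  have h2 := Subgroup.card_mul_index φ.ker
  rw [Subgroup.index_ker] at h2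
  rw [classNumber, classNumber, ← Nat.card_eq_fintype_card, ← Nat.card_eq_fintype_card, ← h1,
    ← h2, padicValNat.mul Nat.card_pos.ne' Nat.card_pos.ne',
    padicValNat.mul Nat.card_pos.ne' Nat.card_pos.ne', padicValNat.eq_zero_of_not_dvd hφ,
    zero_add]
  exact Nat.add_le_add ((padicValNat_dvd_iff_le Nat.card_pos.ne').1 hdS)
    ((padicValNat_dvd_iff_le Nat.card_pos.ne').1
      (pow_padicValNat_dvd.trans (Subgroup.card_dvd_of_le hφN)))

/-- **Reflection with the relative class number.** -/
theorem card_torsion_le_relClassNumber [IsGalois ℚ K] (hp2 : p ≠ 2) {ζ : K}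
    (hζ : IsPrimitiveRoot ζ p) {d : ℕ}
    (hd : padicValNat p (classNumber K) ≤
      padicValNat p (classNumber (maximalRealSubfield K)) + d) :
    Nat.card (powMonoidHom p : ClassGroup (𝓞 K) →* ClassGroup (𝓞 K)).ker ≤
      p ^ (2 * d + 1) := by
  obtain ⟨a, ha, hle⟩ := card_negPart_le (p := p) K hp2
  refine (card_torsion_le_minus K hp2 hζ).trans ?_
  rw [ha, ← pow_mul, ← pow_succ']
  exact Nat.pow_le_pow_right hp.out.pos (by omega)

end FA.FerreroWashington
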