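import Fermat.Agent.ClassField94.Capitulation

/-!
# The part fixed by an involution

For an involution `c` of a finite abelian group `G` and an odd prime `p`, the elements killed by
`p` split into fixed and inverted ones, and there are at most as many fixed ones as characters
`ψ : G → ℤ/p` with `ψ ∘ c = ψ` (`card_torsion_le`).
-/

set_option autoImplicit false
set_option linter.unusedSectionVars false
set_option linter.style.haveILetI false

noncomputable section

namespace FA.FerreroWashington

/-- A finite vector space over `ℤ/p` has as many linear forms as elements. -/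
theorem card_addHom {p : ℕ} [hp : Fact p.Prime] {V : Type*} [AddCommGroup V] [Module (ZMod p) V]
    [Finite V] : Nat.card (V →+ ZMod p) = Nat.card V := by
  let b := Module.Free.chooseBasis (ZMod p) V
  haveI : Module.Finite (ZMod p) V := Module.Finite.of_finite
  rw [Nat.card_congr (AddMonoidHom.toZModLinearMapEquiv p (M := V) (M₁ := ZMod p)).toEquiv,
    ← Nat.card_congr (b.constr (ZMod p) (M' := ZMod p)).toEquiv,
    Nat.card_congr b.equivFun.toEquiv]

/-- An elementary abelian group has as many characters as elements. -/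
theorem card_hom_of_pow_eq_one {p : ℕ} [hp : Fact p.Prime] {V : Type*} [CommGroup V] [Finite V]
    (hV : ∀ x : V, x ^ p = 1) :
    Nat.card (V →* Multiplicative (ZMod p)) = Nat.card V := by
  letI : Module (ZMod p) (Additive V) :=
    AddCommGroup.zmodModule fun (x : Additive V) =>
      show p • x = 0 from congrArg Additive.ofMul (hV x.toMul)
  exact ((Nat.card_congr MonoidHom.toAdditiveLeft).trans
    (card_addHom (p := p) (V := Additive V))).trans (Nat.card_congr Additive.toMul)

variable {p : ℕ} [hp : Fact p.Prime] {G : Type*} [CommGroup G] [Finite G] (c : G →* G)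

/-- The elements killed by `p` and inverted by `c`. -/
def negPart (p : ℕ) (c : G →* G) : Subgroup G :=
  (powMonoidHom p : G →* G).ker ⊓ (MonoidHom.id G * c).ker

theorem mem_negPart {x : G} : x ∈ negPart p c ↔ x ^ p = 1 ∧ x * c x = 1 := Iff.rfl

/-- The elements fixed by `c`. -/
def fixPart : Subgroup G := MonoidHom.eqLocus c (MonoidHom.id G)

theorem mem_fixPart {x : G} : x ∈ fixPart c ↔ c x = x := Iff.rfl

/-- The even characters. -/
abbrev EvenChar (p : ℕ) (c : G →* G) : Type _ :=
  {ψ : G →* Multiplicative (ZMod p) // ∀ x, ψ (c x) = ψ x}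

variable {c}

/-- **The bound on the elements killed by `p`.** -/
theorem card_torsion_le (hp2 : p ≠ 2) (hc : ∀ x, c (c x) = x) :
    Nat.card (powMonoidHom p : G →* G).ker ≤
      Nat.card (EvenChar p c) * Nat.card (negPart p c) := by
  set P := fixPart c
  have hodd : p % 2 = 1 := Nat.odd_iff.1 (hp.out.odd_of_ne_two hp2)
  have hhalf : ∀ {H : Type _} [CommGroup H] {x : H}, x ^ p = 1 → x ^ 2 = 1 → x = 1 :=
    fun {H} _ {x} h1 h2 => by
      rw [← pow_one x, ← ((Nat.coprime_primes hp.out Nat.prime_two).2 hp2)]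
      exact pow_gcd_eq_one.2 ⟨h1, h2⟩
  have hcard : Nat.card (powMonoidHom p : G →* G).ker ≤
      Nat.card (powMonoidHom p : P →* P).ker * Nat.card (negPart p c) := by
    rw [← Nat.card_prod]
    let f : (powMonoidHom p : G →* G).ker →
        (powMonoidHom p : P →* P).ker × negPart p c := fun x =>
      (⟨⟨x.1 * c x.1, (mem_fixPart c).2 (by rw [map_mul, hc, mul_comm])⟩, Subtype.ext (by
        show (x.1 * c x.1) ^ p = 1
        rw [mul_pow, ← map_pow, show x.1 ^ p = 1 from x.2, map_one, mul_one])⟩,
      ⟨x.1 * (c x.1)⁻¹, (mem_negPart c).2 ⟨by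
        rw [mul_pow, inv_pow, ← map_pow, show x.1 ^ p = 1 from x.2, map_one, inv_one, mul_one],
        by rw [map_mul, map_inv, hc, mul_comm (c x.1), mul_mul_mul_comm, mul_inv_cancel,
          inv_mul_cancel, mul_one]⟩⟩)
    refine Nat.card_le_card_of_injective f fun x y h => Subtype.ext ?_
    have h1 : x.1 * c x.1 = y.1 * c y.1 := congrArg (fun z => z.1.1.1) h
    have h2 : x.1 * (c x.1)⁻¹ = y.1 * (c y.1)⁻¹ := congrArg (fun z => z.2.1) h
    have h3 : x.1 ^ 2 = y.1 ^ 2 := by
      have h4 := congrArg₂ (· * ·) h1 h2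
      simp only [mul_mul_mul_comm _ (c _), mul_inv_cancel, mul_one] at h4
      rwa [pow_two, pow_two]
    refine mul_inv_eq_one.1 (hhalf ?_ ?_)
    · rw [mul_pow, inv_pow, show x.1 ^ p = 1 from x.2, show y.1 ^ p = 1 from y.2, inv_one,
        mul_one]
    · rw [mul_pow, inv_pow, h3, mul_inv_cancel]
  refine hcard.trans (Nat.mul_le_mul_right _ ?_)
  -- characters of `P / P ^ p` give even characters
  set R := (powMonoidHom p : P →* P).range with hR
  have hker : Nat.card (powMonoidHom p : P →* P).ker = Nat.card (P ⧸ R) := by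
    rw [← Subgroup.index_eq_card, hR, Subgroup.index_range]
  rw [hker, ← card_hom_of_pow_eq_one (p := p) (V := P ⧸ R) fun x => by
    obtain ⟨y, rfl⟩ := QuotientGroup.mk_surjective x
    rw [← QuotientGroup.mk_pow, QuotientGroup.eq_one_iff]
    exact ⟨y, rfl⟩]
  let π : G →* P ⧸ R := (QuotientGroup.mk' R).comp
    ((MonoidHom.id G * c).codRestrict P fun x => (mem_fixPart c).2 (by
      show c (x * c x) = x * c x
      rw [map_mul, hc, mul_comm]))
  have hπ : Function.Surjective π := fun y => by
    obtain ⟨y, rfl⟩ := QuotientGroup.mk_surjective y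
    refine ⟨y.1 ^ ((p + 1) / 2), ?_⟩
    refine (QuotientGroup.eq_iff_div_mem).2 ⟨y, Subtype.ext ?_⟩
    show y.1 ^ p = y.1 ^ ((p + 1) / 2) * c (y.1 ^ ((p + 1) / 2)) / y.1
    rw [map_pow, (mem_fixPart c).1 y.2, ← pow_add, eq_div_iff_mul_eq', ← pow_succ]
    congr 1
    omega
  haveI : Finite (EvenChar p c) :=
    Finite.of_injective (fun ψ : EvenChar p c => (ψ.1 : G → Multiplicative (ZMod p)))
      fun ψ φ h => Subtype.ext (DFunLike.coe_injective h)
  refine Nat.card_le_card_of_injective (fun χ => ⟨χ.comp π, fun x => congrArg χ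
    (congrArg (QuotientGroup.mk' R) (Subtype.ext ?_))⟩) fun χ χ' h =>
    (MonoidHom.cancel_right hπ).1 (congrArg Subtype.val h)
  show c x * c (c x) = x * c x
  rw [hc, mul_comm]

end FA.FerreroWashington
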