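import Fermat.Agent.IwasawaGrowth.Tower
import Mathlib.NumberTheory.Cyclotomic.Gal
import Mathlib.NumberTheory.NumberField.Cyclotomic.Basic
import Mathlib.RingTheory.ZMod.UnitsCyclic

/-!
# The cyclotomic `ℤ_p`-extension of `ℚ(ζ_p)`

For an odd prime `p` the fields `ℚ(ζ_{p^(n+1)})` form a `ℤ_p`-extension of `ℚ(ζ_p)`
(`cycTower`).
-/

set_option autoImplicit false
set_option linter.unusedSectionVars false
set_option linter.style.haveILetI false

noncomputable section

open scoped Classical

namespace FA.FerreroWashington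

open FA.IwasawaGrowth

variable (p : ℕ) [hp : Fact p.Prime]

/-- `ℚ(ζ_p)`. -/
abbrev Base : Type := CyclotomicField p ℚ

/-- `ℚ(ζ_{p^(n+1)})` above `ℚ(ζ_p)`. -/
def cycField (n : ℕ) : IntermediateField (Base p) (AlgebraicClosure (Base p)) :=
  IntermediateField.adjoin (Base p)
    {b | ∃ m ∈ ({p ^ (n + 1)} : Set ℕ), m ≠ 0 ∧ b ^ m = 1}

instance isCyclotomic_base : IsCyclotomicExtension {p} ℚ (Base p) := by
  haveI : NeZero ((p : ℕ) : ℚ) := ⟨Nat.cast_ne_zero.2 hp.out.ne_zero⟩
  convert CyclotomicField.isCyclotomicExtension p ℚ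
  all_goals rfl

instance isCyclotomic_rel (n : ℕ) :
    IsCyclotomicExtension {p ^ (n + 1)} (Base p) (cycField p n) :=
  IntermediateField.isCyclotomicExtension_adjoin_of_exists_isPrimitiveRoot _ _ _
    fun m hm hm0 => by
      haveI : NeZero m := ⟨hm0⟩
      obtain ⟨r, hr⟩ := IsAlgClosed.exists_root
        (Polynomial.cyclotomic m (AlgebraicClosure (Base p)))
        (Polynomial.degree_cyclotomic_pos m _ (Nat.pos_of_ne_zero hm0)).ne'
      exact ⟨r, Polynomial.isRoot_cyclotomic_iff.1 hr⟩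

instance isCyclotomic_cycField (n : ℕ) : IsCyclotomicExtension {p ^ (n + 1)} ℚ (cycField p n) := by
  haveI : IsCyclotomicExtension ({p} ∪ {p ^ (n + 1)}) ℚ (cycField p n) :=
    IsCyclotomicExtension.trans _ _ ℚ (Base p) (cycField p n) (algebraMap (Base p) _).injective
  rw [IsCyclotomicExtension.iff_union_of_dvd ℚ (cycField p n) (n := p) (S := {p ^ (n + 1)})
    ⟨_, rfl, pow_ne_zero _ hp.out.ne_zero, dvd_pow_self p n.succ_ne_zero⟩, Set.union_comm]
  infer_instance

instance finite_cycField (n : ℕ) : FiniteDimensional (Base p) (cycField p n) :=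
  haveI : NeZero (p ^ (n + 1)) := ⟨pow_ne_zero _ hp.out.ne_zero⟩
  IsCyclotomicExtension.finiteDimensional {p ^ (n + 1)} (Base p) _

instance numberField_cycField (n : ℕ) : NumberField (cycField p n) :=
  NumberField.of_module_finite (Base p) _

theorem finrank_cycField (n : ℕ) : Module.finrank (Base p) (cycField p n) = p ^ n := by
  haveI : NeZero p := ⟨hp.out.ne_zero⟩
  haveI : NeZero (p ^ (n + 1)) := ⟨pow_ne_zero _ hp.out.ne_zero⟩
  have h := Module.finrank_mul_finrank ℚ (Base p) (cycField p n)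
  rw [IsCyclotomicExtension.Rat.finrank p, IsCyclotomicExtension.Rat.finrank (p ^ (n + 1)),
    Nat.totient_prime hp.out, Nat.totient_prime_pow_succ hp.out, mul_comm (p ^ n)] at h
  exact Nat.eq_of_mul_eq_mul_left (Nat.sub_pos_of_lt hp.out.one_lt) h

theorem monotone_cycField : Monotone (cycField p) := fun n m h =>
  IntermediateField.adjoin.mono _ _ _ fun _ ⟨k, hk, _, hb⟩ =>
    ⟨_, rfl, pow_ne_zero _ hp.out.ne_zero, by
      obtain ⟨d, hd⟩ := pow_dvd_pow p (Nat.succ_le_succ h)
      rw [Set.mem_singleton_iff.1 hk] at hb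
      rw [hd, pow_mul, hb, one_pow]⟩

theorem isCyclic_cycField (hp2 : p ≠ 2) (n : ℕ) :
    IsCyclic (cycField p n ≃ₐ[Base p] cycField p n) := by
  haveI : NeZero (p ^ (n + 1)) := ⟨pow_ne_zero _ hp.out.ne_zero⟩
  haveI := ZMod.isCyclic_units_of_prime_pow p hp.out hp2 (n + 1)
  exact isCyclic_of_injective _ (IsPrimitiveRoot.autToPow_injective (Base p)
    (IsCyclotomicExtension.zeta_spec (p ^ (n + 1)) (Base p) (cycField p n)))

/-- **The cyclotomic tower.** -/
def cycTower (hp2 : p ≠ 2) : ZpTower p (Base p) where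
  field := cycField p
  isGalois n := IsCyclotomicExtension.isGalois {p ^ (n + 1)} (Base p) _
  isCyclic := isCyclic_cycField p hp2
  finrank_eq := finrank_cycField p
  mono := monotone_cycField p

end FA.FerreroWashington
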