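import Fermat.Agent.FerreroWashington.MinusRank
import Fermat.Agent.FerreroWashington.Tower
import Fermat.Agent.IwasawaGrowth.MuCriterion
import Fermat.Agent.Root.SummaryFerreroWashington

/-!
# The theorem of Ferrero and Washington for `ℚ(ζ_{p^(n+1)})`

Along the cyclotomic tower the relative class number grows linearly in `n`; by reflection so do the
`p`-ranks of the class groups, and Iwasawa's criterion gives `μ = 0` (`exists_muZero_cycField`).
Both transfer to every cyclotomic field of the level (`exists_muZero`) and to the maximal real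
subfields (`exists_muZero_real`).
-/

set_option autoImplicit false
set_option linter.unusedSectionVars false
set_option linter.style.haveILetI false

noncomputable section

open NumberField NumberField.IsCMField
open FA.IwasawaGrowth

universe u

namespace FA.FerreroWashington

variable {p : ℕ} [hp : Fact p.Prime]

/-- A level is CM. -/
theorem isCMField_level (hp2 : p ≠ 2) (n : ℕ) (K : Type u) [Field K] [NumberField K]
    [IsCyclotomicExtension {p ^ (n + 1)} ℚ K] : IsCMField K :=
  IsCyclotomicExtension.Rat.isCMField K (S := {p ^ (n + 1)}) ⟨_, rfl, by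
    have h : p ≤ p ^ (n + 1) := Nat.le_self_pow n.succ_ne_zero p
    have := hp.out.two_le
    omega⟩

/-- The `p`-torsion of the class groups along the tower grows at most exponentially in `n`. -/
theorem exists_rank_le (hp2 : p ≠ 2) : ∃ a b n₁ : ℕ, ∀ n, n₁ ≤ n →
    Nat.card (powMonoidHom p :
      ClassGroup (𝓞 (cycField p n)) →* ClassGroup (𝓞 (cycField p n))).ker ≤ p ^ (a * n + b) := by
  obtain ⟨lam, ν, n₀, h⟩ := FA.Summary.ferreroWashington_minus.{0} (p := p) hp2
  refine ⟨2 * lam, 2 * ν.natAbs + 1, n₀, fun n hn => ?_⟩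
  haveI : NeZero (p ^ (n + 1)) := ⟨pow_ne_zero _ hp.out.ne_zero⟩
  haveI := isCMField_level hp2 n (cycField p n)
  haveI : IsGalois ℚ (cycField p n) := IsCyclotomicExtension.isGalois {p ^ (n + 1)} ℚ _
  have hζ := (IsCyclotomicExtension.zeta_spec (p ^ (n + 1)) ℚ (cycField p n)).pow
    (pow_pos hp.out.pos _) (pow_succ p n)
  refine (card_torsion_le_relClassNumber (cycField p n) hp2 hζ
    (d := lam * n + ν.natAbs) ?_).trans (le_of_eq ?_)
  · have h1 := h n hn (cycField p n)
    have h2 := Int.le_natAbs (a := ν)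
    omega
  · ring_nf

/-- **`μ = 0` for the cyclotomic tower.** -/
theorem exists_muZero_cycField (hp2 : p ≠ 2) : ∃ (lam : ℕ) (nu : ℤ) (n₀ : ℕ),
    (∀ n, n₀ ≤ n → (padicValNat p (classNumber (cycField p n)) : ℤ) = lam * n + nu) ∧
    ∃ C, ∀ n, Nat.card (powMonoidHom p :
      ClassGroup (𝓞 (cycField p n)) →* ClassGroup (𝓞 (cycField p n))).ker ≤ C := by
  obtain ⟨a, b, n₁, h⟩ := exists_rank_le (p := p) hp2
  exact (cycTower p hp2).mu_eq_zero_of_le (a := a) (b := b) (n₁ := n₁) h

/-- Isomorphic fields have the same class numbers and torsion. -/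
theorem card_classGroup_congr {F : Type} {F' : Type u} [Field F] [NumberField F] [Field F']
    [NumberField F'] (e : F ≃+* F') (q : ℕ) :
    classNumber F = classNumber F' ∧
      Nat.card (powMonoidHom q : ClassGroup (𝓞 F) →* ClassGroup (𝓞 F)).ker =
        Nat.card (powMonoidHom q : ClassGroup (𝓞 F') →* ClassGroup (𝓞 F')).ker := by
  let f := ClassGroup.mulEquiv (RingOfIntegers.mapRingEquiv e)
  refine ⟨Fintype.card_congr f.toEquiv, Nat.card_congr (f.toEquiv.subtypeEquiv fun x => ?_)⟩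
  show x ^ q = 1 ↔ f x ^ q = 1
  rw [← map_pow, map_eq_one_iff f f.injective]

/-- **The theorem of Ferrero and Washington.** -/
theorem exists_muZero (hp2 : p ≠ 2) : ∃ (lam : ℕ) (nu : ℤ) (n₀ C : ℕ),
    ∀ n, ∀ (K : Type u) [Field K] [NumberField K] [IsCyclotomicExtension {p ^ (n + 1)} ℚ K],
      (n₀ ≤ n → (padicValNat p (classNumber K) : ℤ) = lam * n + nu) ∧
      Nat.card (powMonoidHom p : ClassGroup (𝓞 K) →* ClassGroup (𝓞 K)).ker ≤ C := by
  obtain ⟨lam, nu, n₀, h, C, hC⟩ := exists_muZero_cycField (p := p) hp2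
  refine ⟨lam, nu, n₀, C, fun n K _ _ _ => ?_⟩
  haveI : NeZero (p ^ (n + 1)) := ⟨pow_ne_zero _ hp.out.ne_zero⟩
  obtain ⟨h1, h2⟩ := card_classGroup_congr
    (IsCyclotomicExtension.algEquiv {p ^ (n + 1)} ℚ (cycField p n) K).toRingEquiv p
  exact ⟨fun hn => h1 ▸ h n hn, h2 ▸ hC n⟩

/-- A class becoming principal in a quadratic extension is killed by two. -/
theorem sq_eq_one_of_extended_eq_one (K : Type u) [Field K] [NumberField K] [IsCMField K]
    {I : nonZeroDivisors (Ideal (𝓞 (maximalRealSubfield K)))}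
    (hx : ClassGroup.extendedHom (𝓞 (maximalRealSubfield K)) (𝓞 K) (ClassGroup.mk0 I) = 1) :
    ClassGroup.mk0 I ^ 2 = 1 := by
  rw [ClassGroup.extendedHom_mk0] at hx
  obtain ⟨⟨α, hα⟩⟩ := (ClassGroup.mk0_eq_one_iff
    (ClassGroup.extendedIdeal (𝓞 (maximalRealSubfield K)) (𝓞 K) I).2).mp hx
  rw [← map_pow]
  refine FA.CycloTower.mk0_eq_one_of_eq_span _
    (Algebra.intNorm (𝓞 (maximalRealSubfield K)) (𝓞 K) α) ?_
  have hN := congrArg (Ideal.relNorm (𝓞 (maximalRealSubfield K))) hα
  change Ideal.relNorm (𝓞 (maximalRealSubfield K))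
    ((I : Ideal _).map (algebraMap (𝓞 (maximalRealSubfield K)) (𝓞 K))) = _ at hN
  rw [Ideal.relNorm_algebraMap, Ideal.submodule_span_eq, Ideal.relNorm_singleton,
    ← IsFractionRing.finrank_eq (𝓞 (maximalRealSubfield K)) (maximalRealSubfield K) (𝓞 K) K,
    Algebra.IsQuadraticExtension.finrank_eq_two (maximalRealSubfield K) K] at hN
  rw [SubmonoidClass.coe_pow]
  exact hN

/-- The classes of the real subfield killed by `p` embed. -/
theorem card_torsion_real_le (hp2 : p ≠ 2) (K : Type u) [Field K] [NumberField K] [IsCMField K] :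
    Nat.card (powMonoidHom p : ClassGroup (𝓞 (maximalRealSubfield K)) →*
        ClassGroup (𝓞 (maximalRealSubfield K))).ker ≤
      Nat.card (powMonoidHom p : ClassGroup (𝓞 K) →* ClassGroup (𝓞 K)).ker := by
  set ext := ClassGroup.extendedHom (𝓞 (maximalRealSubfield K)) (𝓞 K)
  refine Nat.card_le_card_of_injective (fun x => ⟨ext x.1, ?_⟩) fun x y h => Subtype.ext ?_
  · show ext x.1 ^ p = 1
    rw [← map_pow, show x.1 ^ p = 1 from x.2, map_one]
  have h1 : ext (x.1 / y.1) = 1 := by
    rw [map_div, show ext x.1 = ext y.1 from congrArg Subtype.val h, div_self']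
  have h2 : (x.1 / y.1) ^ 2 = 1 := by
    obtain ⟨I, hI⟩ := ClassGroup.mk0_surjective (x.1 / y.1)
    rw [← hI] at h1 ⊢
    exact sq_eq_one_of_extended_eq_one K h1
  have h3 : (x.1 / y.1) ^ p = 1 := by
    rw [div_pow, show x.1 ^ p = 1 from x.2, show y.1 ^ p = 1 from y.2, div_self']
  refine div_eq_one.1 ?_
  rw [← pow_one (x.1 / y.1), ← ((Nat.coprime_primes hp.out Nat.prime_two).2 hp2)]
  exact pow_gcd_eq_one.2 ⟨h3, h2⟩

/-- **The same for the real subfields.** -/
theorem exists_muZero_real (hp2 : p ≠ 2) : ∃ (lam : ℕ) (nu : ℤ) (n₀ C : ℕ),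
    ∀ n, ∀ (K : Type u) [Field K] [NumberField K] [IsCyclotomicExtension {p ^ (n + 1)} ℚ K],
      (n₀ ≤ n →
        (padicValNat p (classNumber (maximalRealSubfield K)) : ℤ) = lam * n + nu) ∧
      Nat.card (powMonoidHom p : ClassGroup (𝓞 (maximalRealSubfield K)) →*
        ClassGroup (𝓞 (maximalRealSubfield K))).ker ≤ C := by
  obtain ⟨lam₁, nu₁, n₁, C, h⟩ := exists_muZero.{u} (p := p) hp2
  obtain ⟨lam₂, nu₂, n₂, hmin⟩ := FA.Summary.ferreroWashington_minus.{u} (p := p) hp2
  refine ⟨lam₁ - lam₂, nu₁ - nu₂, max n₁ n₂, C, fun n K _ _ _ => ?_⟩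
  haveI := isCMField_level hp2 n K
  refine ⟨fun hn => ?_, (card_torsion_real_le hp2 K).trans (h n K).2⟩
  have key : ∀ m, max n₁ n₂ ≤ m → ∀ (F : Type u) [Field F] [NumberField F]
      [IsCyclotomicExtension {p ^ (m + 1)} ℚ F],
      (padicValNat p (classNumber (maximalRealSubfield F)) : ℤ) =
        ((lam₁ : ℤ) - lam₂) * m + (nu₁ - nu₂) := fun m hm F _ _ _ => by
    have h1 := (h m F).1 ((le_max_left _ _).trans hm)
    have h2 := hmin m ((le_max_right _ _).trans hm) F
    linarith
  have hle : lam₂ ≤ lam₁ := by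
    by_contra hlt
    obtain ⟨m, hm1, hm2⟩ : ∃ m, max n₁ n₂ ≤ m ∧ (nu₁ - nu₂).natAbs + 1 ≤ m :=
      ⟨_, le_max_left _ _, le_max_right _ _⟩
    haveI : NeZero (p ^ (m + 1)) := ⟨pow_ne_zero _ hp.out.ne_zero⟩
    -- a field of the level `m` in the universe `u`
    let F := ULift.{u} (cycField p m)
    haveI : CharZero F :=
      charZero_of_injective_ringHom (f := (ULift.ringEquiv.symm : cycField p m ≃+* F).toRingHom)
        (RingEquiv.injective _)
    haveI hF : IsCyclotomicExtension {p ^ (m + 1)} ℚ F :=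
      IsCyclotomicExtension.equiv _ ℚ (cycField p m)
        (RingEquiv.toRatAlgEquiv (ULift.ringEquiv.symm : cycField p m ≃+* F))
    haveI : NumberField F := IsCyclotomicExtension.numberField {p ^ (m + 1)} ℚ F
    have h3 := key m hm1 F
    have h4 : (0 : ℤ) ≤ padicValNat p (classNumber (maximalRealSubfield F)) := Int.natCast_nonneg _
    have h5 : ((lam₁ : ℤ) - lam₂) * m ≤ (-1) * m :=
      mul_le_mul_of_nonneg_right (by omega) (Int.natCast_nonneg _)
    omega
  rw [key n hn K, Nat.cast_sub hle]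

end FA.FerreroWashington
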