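import Fermat.Agent.FerreroWashington.EvenPart
import Fermat.Agent.VandiverStructure.Reflection

/-!
# Reflection in a CM field

Let `K` be a CM field, Galois over `ℚ`, containing the `p`-th roots of unity, `p` odd. A character
of order `p` of the class group fixed by complex conjugation has a radical `b` with `b · b̄` a
`p`-th power; `(b) = D ^ p`, and the class of `D` is inverted by conjugation. The class determines
`b` up to a unit, hence up to a root of unity. So there are at most `p · |Cl(K)⁻[p]|` such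
characters and `|Cl(K)[p]| ≤ p · |Cl(K)⁻[p]| ^ 2` (`card_torsion_le_minus`): the inequality
`rk⁺ ≤ rk⁻ + 1`.

Classical (Leopoldt).
-/

set_option autoImplicit false
set_option linter.unusedSectionVars false
set_option linter.style.haveILetI false

noncomputable section

open scoped Classical Pointwise nonZeroDivisors
open NumberField NumberField.IsCMField IsDedekindDomain FA.ArtinRec FA.AmbClass FA.HerbrandRibet
open FA.ClassField94 (conjClass conjClass_conjClass)

namespace FA.FerreroWashington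

variable {p : ℕ} [hp : Fact p.Prime] (K : Type) [Field K] [NumberField K] [IsCMField K]

/-- Conjugation over `ℚ`. -/
def conjQ : K ≃ₐ[ℚ] K := (complexConj K).restrictScalars ℚ

theorem conjQ_apply (x : K) : conjQ K x = complexConj K x := rfl

theorem galCl_conjQ (x : ClassGroup (𝓞 K)) : galCl (conjQ K) x = conjClass K x := by
  have h : MulSemiringAction.toRingEquiv (K ≃ₐ[ℚ] K) (𝓞 K) (conjQ K) =
      RingOfIntegers.mapRingEquiv (complexConj K).toRingEquiv :=
    RingEquiv.ext fun x => RingOfIntegers.ext rfl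
  show ClassGroup.mulEquiv _ x = ClassGroup.mulEquiv _ x
  rw [h]

theorem galCl_conjQ_conjQ (x : ClassGroup (𝓞 K)) :
    galCl (conjQ K) (galCl (conjQ K) x) = x := by
  rw [galCl_conjQ, galCl_conjQ, conjClass_conjClass]

variable {K}

/-- Conjugation inverts roots of unity. -/
theorem conjQ_root {ζ : K} (hζ : IsPrimitiveRoot ζ p) : conjQ K ζ = ζ ^ (p - 1) := by
  let φ : K →+* ℂ := Classical.choice (inferInstance : Nonempty _)
  refine φ.injective ?_
  rw [conjQ_apply, complexEmbedding_complexConj, ← Complex.inv_eq_conj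
    (Complex.norm_eq_one_of_pow_eq_one (n := p) (by rw [← map_pow, hζ.pow_eq_one, map_one])
      hp.out.ne_zero), map_pow]
  refine inv_eq_of_mul_eq_one_right ?_
  rw [← pow_succ', Nat.sub_add_cancel hp.out.one_le, ← map_pow, hζ.pow_eq_one, map_one]

/-- A radical of an even character. -/
structure IsEvenRadical (ζ : K) (ψ : ClassGroup (𝓞 K) →* Multiplicative (ZMod p)) (b : Kˣ)
    (D : Dvs K) : Prop where
  res : IsResChar p ζ b ψ
  norm : ∃ w : Kˣ, galU (conjQ K) b * b = w ^ p
  ord : D ^ p = ordHom b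
  mem : cls D ∈ negPart p (galCl (conjQ K))

/-- **The radical of an even character.** -/
theorem exists_evenRadical [IsGalois ℚ K] {ζ : K} (hζ : IsPrimitiveRoot ζ p)
    (ψ : ClassGroup (𝓞 K) →* Multiplicative (ZMod p))
    (hψ : ∀ C, ψ (galCl (conjQ K) C) = ψ C) : ∃ b D, IsEvenRadical ζ ψ b D := by
  haveI : NeZero p := ⟨hp.out.ne_zero⟩
  obtain ⟨H, _, _, _, _, _, -, -, ⟨e, he⟩, hcl⟩ := exists_hilbertClassField (K := K)
  have hH : ∀ v : HeightOneSpectrum (𝓞 K), ¬ IsRam H v := fun v => hcl.unram v (sup_top_eq _)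
  have hζH := hζ.map_of_injective (algebraMap K H).injective
  set zH : Hˣ := Units.mk0 (algebraMap K H ζ) (hζH.ne_zero hp.out.ne_zero)
  have hzH : ∀ σ : H ≃ₐ[K] H, ∀ n : ℕ, σ • zH ^ n = zH ^ n := fun σ n => Units.ext (by
    show σ ((zH ^ n : Hˣ) : H) = ((zH ^ n : Hˣ) : H)
    rw [Units.val_pow_eq_pow_val, Units.val_mk0, map_pow, AlgEquiv.commutes])
  obtain ⟨β, hβ⟩ := groupCohomology.isMulCoboundary₁_of_isMulCocycle₁_of_aut_to_units
    (fun σ => zH ^ (Multiplicative.toAdd (ψ (e.symm σ))).val) (fun g h => by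
      show zH ^ _ = g • zH ^ _ * zH ^ _
      rw [hzH, map_mul, map_mul, toAdd_mul, add_comm]
      refine Units.ext ?_
      rw [Units.val_mul, Units.val_pow_eq_pow_val, Units.val_pow_eq_pow_val,
        Units.val_pow_eq_pow_val, Units.val_mk0]
      exact FA.Kolyvagin.zeta_pow_add hζH _ _)
  have hσβ : ∀ σ : H ≃ₐ[K] H, σ (β : H) =
      algebraMap K H ζ ^ (Multiplicative.toAdd (ψ (e.symm σ))).val * β := fun σ => by
    have := congrArg Units.val (div_eq_iff_eq_mul.1 (hβ σ))
    rwa [Units.val_mul, Units.val_pow_eq_pow_val] at this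
  obtain ⟨b₀, hb₀⟩ := (IsGalois.mem_range_algebraMap_iff_fixed (F := K) ((β : H) ^ p)).mpr
    fun σ => by rw [map_pow, hσβ, mul_pow, pow_right_comm, hζH.pow_eq_one, one_pow, one_mul]
  have hb₀0 : b₀ ≠ 0 := fun h => pow_ne_zero p β.ne_zero (by rw [← hb₀, h, map_zero])
  set b : Kˣ := Units.mk0 b₀ hb₀0
  have hres : IsResChar p ζ b ψ := fun v hv hvb => by
    obtain ⟨Q, hQ, hτ⟩ := artinAt_spec (L := H) v
    refine res_of_frob hζ hv hQ hτ hvb (w := (β : H)) hb₀.symm ?_
    rw [hσβ, map_pow, show e.symm (artinAt H v) = primeCls v from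
      e.symm_apply_eq.2 (he v).symm]
  have hord : ∀ v : HeightOneSpectrum (𝓞 K), (p : ℤ) ∣ ord v b := fun v => by
    obtain ⟨Q, hQ⟩ := exists_belowP K H v
    refine ⟨ord Q β, ?_⟩
    have h1 := ord_baseU Q b
    rw [eIdx_eq_one (hH _), Nat.cast_one, one_mul, hQ,
      show baseU (L := H) b = β ^ p from Units.ext (by
        rw [Units.val_pow_eq_pow_val, ← hb₀]; rfl), ord_pow] at h1
    exact h1.symm
  set σ := conjQ K
  obtain ⟨w, hw⟩ := exists_eq_pow_of_res_zero hζ (galU σ b / b ^ (p - 1))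
    (((finite_natCast_mem (p := p)).union (finite_ord_ne_zero b)).union
      ((finite_ord_ne_zero b).preimage (galPrime_injective σ⁻¹).injOn)) fun u hu => by
    simp only [Set.mem_union, Set.mem_ofPred_eq, Set.mem_preimage, not_or, not_not] at hu
    obtain ⟨⟨hup, hu0⟩, hv0⟩ := hu
    set v := galPrime σ⁻¹ u
    have hσv : galPrime σ v = u := by rw [← galPrime_mul, mul_inv_cancel, galPrime_one]
    have hvp : (p : 𝓞 K) ∉ v.asIdeal := fun h => hup ((natCast_mem_galPrime_iff _ u p).1 h)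
    have h1 := res_galPrime σ (conjQ_root hζ) (hres v hvp hv0)
    rw [hσv] at h1
    refine res_div hζ h1 (res_pow hζ (hres u hup hu0) (p - 1)) ?_
    have hu' : primeCls u = galCl σ (primeCls v) := by rw [galCl_primeCls, hσv]
    rw [hu', hψ, mul_comm]
  have hN : galU σ b * b = (b * w) ^ p := by
    rw [← div_mul_cancel (galU σ b) (b ^ (p - 1)), hw, mul_assoc, ← pow_succ,
      Nat.sub_add_cancel hp.out.one_le, mul_pow, mul_comm]
  obtain ⟨D, hD⟩ := exists_dvs_pow_eq hord
  refine ⟨b, D, hres, ⟨_, hN⟩, hD, (mem_negPart _).2 ⟨?_, ?_⟩⟩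
  · rw [← map_pow, hD, ← MonoidHom.mem_ker, ker_cls]
    exact ⟨b, rfl⟩
  · have h2 : D * galDiv σ D = ordHom (b * w) := dvs_pow_inj hp.out.ne_zero (by
      rw [mul_pow, ← map_pow (galDiv σ), hD, ← galDiv_ordHom, ← map_mul, mul_comm b, hN, map_pow])
    rw [← cls_galDiv, ← map_mul, h2, ← MonoidHom.mem_ker, ker_cls]
    exact ⟨_, rfl⟩

/-- **Two radicals with the same class differ by a root of unity**, after squaring. -/
theorem IsEvenRadical.exists_torsion {ζ : K}
    {ψ φ : ClassGroup (𝓞 K) →* Multiplicative (ZMod p)} {b b' : Kˣ} {D D' : Dvs K}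
    (h : IsEvenRadical ζ ψ b D) (h' : IsEvenRadical ζ φ b' D') (hD : cls D = cls D') :
    ∃ (t : Units.torsion K) (W : Kˣ), (b' / b) ^ 2 = intUnits (t : (𝓞 K)ˣ) * W ^ p := by
  obtain ⟨y, hy⟩ : D' / D ∈ (ordHom (F := K)).range := by
    rw [← ker_cls, MonoidHom.mem_ker, map_div, hD, div_self']
  obtain ⟨U, hU⟩ := exists_intUnits_eq (x := b' / b / y ^ p) fun v => by
    rw [← toAdd_ordHom, (ordHom (F := K)).map_div, (ordHom (F := K)).map_div,
      (ordHom (F := K)).map_pow, hy, div_pow, h.ord, h'.ord, div_self', toAdd_one,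
      Finsupp.zero_apply]
  obtain ⟨w, hw⟩ := h.norm
  obtain ⟨w', hw'⟩ := h'.norm
  have hc : intUnits (unitsComplexConj K U) = galU (conjQ K) (intUnits U) := Units.ext rfl
  set v := w' / w / (galU (conjQ K) y * y) with hv
  have hN : intUnits (unitsComplexConj K U) * intUnits U = v ^ p := by
    rw [hc, hU, map_div, map_div, map_pow, hv, div_mul_div_comm, div_mul_div_comm, hw, hw',
      div_pow, div_pow, mul_pow]
  refine ⟨unitsMulComplexConjInv K U, v * y ^ 2, ?_⟩
  have hb : b' / b = intUnits U * y ^ p := by rw [hU, div_mul_cancel]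
  rw [hb, mul_pow v, ← hN, unitsMulComplexConjInv_apply, map_mul, map_inv, mul_pow,
    ← pow_mul, ← pow_mul, mul_comm p 2]
  rw [show ∀ a c d : Kˣ, a * c⁻¹ * (c * a * d) = a ^ 2 * d from fun a c d => by
    rw [mul_assoc, mul_assoc c, inv_mul_cancel_left, pow_two, mul_assoc]]

/-- **At most `p` even characters for each class.** -/
theorem card_evenChar_le [IsGalois ℚ K] (hp2 : p ≠ 2) {ζ : K} (hζ : IsPrimitiveRoot ζ p) :
    Nat.card (EvenChar p (galCl (conjQ K))) ≤ p * Nat.card (negPart p (galCl (conjQ K))) := by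
  set c := galCl (conjQ K)
  set R := (powMonoidHom p : Units.torsion K →* Units.torsion K).range
  have hR : Nat.card (Units.torsion K ⧸ R) ≤ p := by
    rw [← Subgroup.index_eq_card, IsCyclic.index_powMonoidHom_range]
    exact Nat.le_of_dvd hp.out.pos (Nat.gcd_dvd_right _ _)
  choose b D hbD using fun ψ : EvenChar p c => exists_evenRadical hζ ψ.1 ψ.2
  let s : EvenChar p c → negPart p c := fun ψ => ⟨cls (D ψ), (hbD ψ).mem⟩
  let rep : EvenChar p c → EvenChar p c := fun ψ =>
    (⟨ψ, rfl⟩ : ∃ φ, s φ = s ψ).choose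
  have hrep : ∀ ψ, s (rep ψ) = s ψ := fun ψ => (⟨ψ, rfl⟩ : ∃ φ, s φ = s ψ).choose_spec
  have hrep' : ∀ ψ φ, s ψ = s φ → rep ψ = rep φ := fun ψ φ h => by
    simp only [rep, h]
  choose t W htW using fun ψ : EvenChar p c =>
    (hbD (rep ψ)).exists_torsion (hbD ψ) (congrArg Subtype.val (hrep ψ))
  haveI : Finite (Units.torsion K ⧸ R) := inferInstance
  refine le_trans (Nat.card_le_card_of_injective
    (fun ψ => ((QuotientGroup.mk (t ψ) : Units.torsion K ⧸ R), s ψ)) fun ψ φ h => ?_)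
    (by rw [Nat.card_prod]; exact Nat.mul_le_mul_right _ hR)
  obtain ⟨h1, h2⟩ := Prod.ext_iff.1 h
  obtain ⟨z, hz⟩ := QuotientGroup.eq.1 h1
  have hφ := htW φ
  rw [← hrep' ψ φ h2] at hφ
  have h3 : (b φ / b ψ) ^ 2 = (intUnits (z : (𝓞 K)ˣ) * (W φ / W ψ)) ^ p := by
    have h4 := congrArg (fun u : Units.torsion K => intUnits (u : (𝓞 K)ˣ)) hz
    simp only [powMonoidHom_apply, Subgroup.coe_pow, Subgroup.coe_mul, Subgroup.coe_inv, map_mul,
      map_inv, map_pow] at h4
    rw [← div_div_div_cancel_right (b φ) (b ψ) (b (rep ψ)), div_pow, hφ, htW ψ,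
      mul_div_mul_comm, mul_pow, h4, div_pow, div_eq_inv_mul]
  have hb : b φ = b ψ ^ 1 *
      ((intUnits (z : (𝓞 K)ˣ) * (W φ / W ψ)) ^ ((p + 1) / 2) / (b φ / b ψ)) ^ p := by
    rw [pow_one, div_pow, ← pow_mul, mul_comm _ p, pow_mul, ← h3, ← pow_mul,
      show 2 * ((p + 1) / 2) = p + 1 by have := Nat.odd_iff.1 (hp.out.odd_of_ne_two hp2); omega,
      pow_succ, mul_div_cancel_left, mul_div_cancel]
  exact (Subtype.ext (MonoidHom.ext fun C => by
    rw [VandiverStructure.map_eq_pow_of_radical hζ (hbD ψ).res (hbD φ).res hb C, pow_one])).symm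

variable (K)

/-- **The reflection inequality `rk⁺ ≤ rk⁻ + 1`.** -/
theorem card_torsion_le_minus [IsGalois ℚ K] (hp2 : p ≠ 2) {ζ : K} (hζ : IsPrimitiveRoot ζ p) :
    Nat.card (powMonoidHom p : ClassGroup (𝓞 K) →* ClassGroup (𝓞 K)).ker ≤
      p * Nat.card (negPart p (galCl (conjQ K))) ^ 2 := by
  refine (card_torsion_le hp2 (galCl_conjQ_conjQ K)).trans ?_
  rw [pow_two, ← mul_assoc]
  exact Nat.mul_le_mul_right _ (card_evenChar_le hp2 hζ)

end FA.FerreroWashington
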